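/-
P-MW block E, row 908 (MW-E-ISO), GENERIC PART (Mathlib only): the integral closure of `k[t]`
in a function field commutes with an algebraic extension of the constant field, given linear
disjointness and Galois descent as hypotheses.

Setting: fields `k ⊆ K` (`K / k` algebraic), fields `F ⊇ k`, `FK ⊇ K`, a ring homomorphism
`ι : F → FK` over `k`, `t ∈ F`; `R = integralClosure k[t] F`, `RK = integralClosure K[ι t] FK`.
-/
import Mathlib

set_option autoImplicit false
set_option linter.style.haveILetI false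

noncomputable section

open scoped TensorProduct

namespace Fermat.Agent.H33.MWE

section generic

variable {k K F FK : Type} [Field k] [Field K] [Algebra k K] [Field F] [Algebra k F]
  [Field FK] [Algebra K FK] [Algebra k FK] [IsScalarTower k K FK]

/-- `ι` maps `k[t]` into `K[ι t]`. -/
theorem map_mem_adjoin (ι : F →+* FK) (hι : ∀ c : k, ι (algebraMap k F c) = algebraMap k FK c)
    (t : F) {a : F} (ha : a ∈ Algebra.adjoin k ({t} : Set F)) :
    ι a ∈ Algebra.adjoin K ({ι t} : Set FK) := by
  induction ha using Algebra.adjoin_induction with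
  | mem x hx =>
    rw [Set.mem_singleton_iff] at hx
    rw [hx]
    exact Algebra.subset_adjoin (Set.mem_singleton _)
  | algebraMap c =>
    rw [hι, IsScalarTower.algebraMap_apply k K FK]
    exact Subalgebra.algebraMap_mem _ _
  | add x y _ _ hx hy => rw [map_add]; exact add_mem hx hy
  | mul x y _ _ hx hy => rw [map_mul]; exact mul_mem hx hy

/-- The restriction `k[t] → K[ι t]` of `ι`. -/
def adjoinMap (ι : F →+* FK) (hι : ∀ c : k, ι (algebraMap k F c) = algebraMap k FK c) (t : F) :
    ↥(Algebra.adjoin k ({t} : Set F)) →+* ↥(Algebra.adjoin K ({ι t} : Set FK)) where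
  toFun a := ⟨ι (a : F), map_mem_adjoin ι hι t a.2⟩
  map_one' := Subtype.ext (map_one ι)
  map_mul' _ _ := Subtype.ext (map_mul ι _ _)
  map_zero' := Subtype.ext (map_zero ι)
  map_add' _ _ := Subtype.ext (map_add ι _ _)

/-- `ι` maps integral elements over `k[t]` to integral elements over `K[ι t]`. -/
theorem isIntegral_map (ι : F →+* FK) (hι : ∀ c : k, ι (algebraMap k F c) = algebraMap k FK c)
    (t : F) {r : F} (hr : IsIntegral (Algebra.adjoin k ({t} : Set F)) r) :
    IsIntegral (Algebra.adjoin K ({ι t} : Set FK)) (ι r) :=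
  IsIntegral.map_of_comp_eq (adjoinMap ι hι t) ι (RingHom.ext fun _ => rfl) hr

/-- The `k`-algebra homomorphism `R → RK` induced by `ι`. -/
def intMap (ι : F →+* FK) (hι : ∀ c : k, ι (algebraMap k F c) = algebraMap k FK c) (t : F) :
    ↥(integralClosure (Algebra.adjoin k ({t} : Set F)) F) →ₐ[k]
      ↥(integralClosure (Algebra.adjoin K ({ι t} : Set FK)) FK) where
  toFun r := ⟨ι (r : F), isIntegral_map ι hι t r.2⟩
  map_one' := Subtype.ext (map_one ι)
  map_mul' _ _ := Subtype.ext (map_mul ι _ _)
  map_zero' := Subtype.ext (map_zero ι)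
  map_add' _ _ := Subtype.ext (map_add ι _ _)
  commutes' c := Subtype.ext (hι c)

@[simp]
theorem coe_intMap (ι : F →+* FK) (hι : ∀ c : k, ι (algebraMap k F c) = algebraMap k FK c)
    (t : F) (r : ↥(integralClosure (Algebra.adjoin k ({t} : Set F)) F)) :
    ((intMap ι hι t r : ↥(integralClosure (Algebra.adjoin K ({ι t} : Set FK)) FK)) : FK) =
      ι (r : F) := rfl

/-- The comparison map `K ⊗ R → RK`. -/
def barMap (ι : F →+* FK) (hι : ∀ c : k, ι (algebraMap k F c) = algebraMap k FK c) (t : F) :
    (K ⊗[k] ↥(integralClosure (Algebra.adjoin k ({t} : Set F)) F)) →ₐ[K]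
      ↥(integralClosure (Algebra.adjoin K ({ι t} : Set FK)) FK) :=
  Algebra.TensorProduct.lift (Algebra.ofId K _) (intMap ι hι t) (fun _ _ => Commute.all _ _)

theorem coe_barMap_tmul (ι : F →+* FK) (hι : ∀ c : k, ι (algebraMap k F c) = algebraMap k FK c)
    (t : F) (c : K) (r : ↥(integralClosure (Algebra.adjoin k ({t} : Set F)) F)) :
    ((barMap ι hι t (c ⊗ₜ[k] r) : ↥(integralClosure (Algebra.adjoin K ({ι t} : Set FK)) FK)) :
      FK) = c • ι (r : F) := by
  rw [barMap, Algebra.TensorProduct.lift_tmul, Algebra.smul_def]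
  rfl

/-- The comparison map is injective, by linear disjointness. -/
theorem barMap_injective (ι : F →+* FK)
    (hι : ∀ c : k, ι (algebraMap k F c) = algebraMap k FK c) (t : F)
    (hL : ∀ (J : Type) (f : J → F), LinearIndependent k f →
      LinearIndependent K (fun i => ι (f i))) :
    Function.Injective (barMap (K := K) ι hι t) := by
  classical
  let b := Module.Free.chooseBasis k ↥(integralClosure (Algebra.adjoin k ({t} : Set F)) F)
  let bK := Algebra.TensorProduct.basis K b
  have hv : Submodule.span K (Set.range bK) = ⊤ := bK.span_eq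
  have h1 : LinearIndependent k
      (fun i => ((b i : ↥(integralClosure (Algebra.adjoin k ({t} : Set F)) F)) : F)) := by
    have := b.linearIndependent.map'
      (IsScalarTower.toAlgHom k ↥(integralClosure (Algebra.adjoin k ({t} : Set F)) F) F).toLinearMap
      (LinearMap.ker_eq_bot.mpr Subtype.val_injective)
    exact this
  have h2 := hL _ _ h1
  have hli : LinearIndependent K ((barMap (K := K) ι hι t).toLinearMap ∘ bK) := by
    refine LinearIndependent.of_comp
      (IsScalarTower.toAlgHom K ↥(integralClosure (Algebra.adjoin K ({ι t} : Set FK)) FK)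
        FK).toLinearMap ?_
    have hfun : ((IsScalarTower.toAlgHom K
        ↥(integralClosure (Algebra.adjoin K ({ι t} : Set FK)) FK) FK).toLinearMap ∘
          ((barMap (K := K) ι hι t).toLinearMap ∘ bK)) =
        fun i => ι ((b i : ↥(integralClosure (Algebra.adjoin k ({t} : Set F)) F)) : F) := by
      funext i
      simp only [Function.comp_apply, AlgHom.toLinearMap_apply, bK,
        Algebra.TensorProduct.basis_apply]
      show ((barMap ι hι t (1 ⊗ₜ[k] b i) :
        ↥(integralClosure (Algebra.adjoin K ({ι t} : Set FK)) FK)) : FK) = _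
      rw [coe_barMap_tmul, one_smul]
    rw [hfun]
    exact h2
  exact LinearMap.injective_of_linearIndependent hv hli

/-- Integrality descends along `ι`. -/
theorem isIntegral_of_isIntegral_map [Algebra.IsAlgebraic k K] (ι : F →+* FK)
    (hι : ∀ c : k, ι (algebraMap k F c) = algebraMap k FK c) (t : F) {f : F}
    (hf : IsIntegral (Algebra.adjoin K ({ι t} : Set FK)) (ι f)) :
    IsIntegral (Algebra.adjoin k ({t} : Set F)) f := by
  letI algA : Algebra ↥(Algebra.adjoin k ({t} : Set F)) FK :=
    (ι.comp (algebraMap ↥(Algebra.adjoin k ({t} : Set F)) F)).toAlgebra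
  letI algAAK : Algebra ↥(Algebra.adjoin k ({t} : Set F))
      ↥(Algebra.adjoin K ({ι t} : Set FK)) := (adjoinMap ι hι t).toAlgebra
  haveI : IsScalarTower ↥(Algebra.adjoin k ({t} : Set F))
      ↥(Algebra.adjoin K ({ι t} : Set FK)) FK := IsScalarTower.of_algebraMap_eq (fun a => rfl)
  haveI : IsScalarTower k ↥(Algebra.adjoin k ({t} : Set F)) FK :=
    IsScalarTower.of_algebraMap_eq (fun c => (hι c).symm)
  have hAK : ∀ x : FK, x ∈ Algebra.adjoin K ({ι t} : Set FK) →
      IsIntegral ↥(Algebra.adjoin k ({t} : Set F)) x := by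
    intro x hx
    induction hx using Algebra.adjoin_induction with
    | mem x hx =>
      rw [Set.mem_singleton_iff] at hx
      rw [hx]
      exact isIntegral_algebraMap
        (x := (⟨t, Algebra.subset_adjoin (Set.mem_singleton t)⟩ :
          ↥(Algebra.adjoin k ({t} : Set F))))
    | algebraMap c =>
      have hc : IsIntegral k c := Algebra.IsIntegral.isIntegral c
      have h1 : IsIntegral k (algebraMap K FK c) := hc.map (IsScalarTower.toAlgHom k K FK)
      exact h1.tower_top
    | add x y _ _ hx hy => exact hx.add hy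
    | mul x y _ _ hx hy => exact hx.mul hy
  haveI : Algebra.IsIntegral ↥(Algebra.adjoin k ({t} : Set F))
      ↥(Algebra.adjoin K ({ι t} : Set FK)) :=
    ⟨fun x => (isIntegral_algebraMap_iff (B := FK) Subtype.val_injective).mp (hAK x x.2)⟩
  have h1 : IsIntegral ↥(Algebra.adjoin k ({t} : Set F)) (ι f) :=
    isIntegral_trans (A := ↥(Algebra.adjoin K ({ι t} : Set FK))) (ι f) hf
  obtain ⟨p, hp, hpe⟩ := h1
  refine ⟨p, hp, ?_⟩
  have h2 : ι (Polynomial.eval₂ (algebraMap ↥(Algebra.adjoin k ({t} : Set F)) F) f p) = 0 := by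
    rw [Polynomial.hom_eval₂]
    exact hpe
  exact (map_eq_zero ι).mp h2

/-- A ring endomorphism of `FK` which fixes `ι t` and preserves the constants preserves
`K[ι t]`. -/
theorem act_mem_adjoin (ι : F →+* FK) (t : F) (τ : FK →+* FK) (ht : τ (ι t) = ι t)
    (hK : ∀ c : K, ∃ c' : K, τ (algebraMap K FK c) = algebraMap K FK c') {a : FK}
    (ha : a ∈ Algebra.adjoin K ({ι t} : Set FK)) :
    τ a ∈ Algebra.adjoin K ({ι t} : Set FK) := by
  induction ha using Algebra.adjoin_induction with
  | mem x hx =>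
    rw [Set.mem_singleton_iff] at hx
    rw [hx, ht]
    exact Algebra.subset_adjoin (Set.mem_singleton _)
  | algebraMap c =>
    obtain ⟨c', hc'⟩ := hK c
    rw [hc']
    exact Subalgebra.algebraMap_mem _ _
  | add x y _ _ hx hy => rw [map_add]; exact add_mem hx hy
  | mul x y _ _ hx hy => rw [map_mul]; exact mul_mem hx hy

/-- Such an endomorphism preserves integrality over `K[ι t]`. -/
theorem isIntegral_act (ι : F →+* FK) (t : F) (τ : FK →+* FK) (ht : τ (ι t) = ι t)
    (hK : ∀ c : K, ∃ c' : K, τ (algebraMap K FK c) = algebraMap K FK c') {v : FK}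
    (hv : IsIntegral (Algebra.adjoin K ({ι t} : Set FK)) v) :
    IsIntegral (Algebra.adjoin K ({ι t} : Set FK)) (τ v) := by
  let φ : ↥(Algebra.adjoin K ({ι t} : Set FK)) →+* ↥(Algebra.adjoin K ({ι t} : Set FK)) :=
    { toFun := fun a => ⟨τ (a : FK), act_mem_adjoin ι t τ ht hK a.2⟩
      map_one' := Subtype.ext (map_one τ)
      map_mul' := fun _ _ => Subtype.ext (map_mul τ _ _)
      map_zero' := Subtype.ext (map_zero τ)
      map_add' := fun _ _ => Subtype.ext (map_add τ _ _) }
  exact IsIntegral.map_of_comp_eq φ τ (RingHom.ext fun _ => rfl) hv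

/-- **The comparison map and filtrations.**  If `W ⊆ R` and `WK ⊆ RK` are submodules such that
`WK` is Galois-stable and `W` is the preimage of `WK`, then the comparison map sends the base
change of `W` onto `WK`. -/
theorem barMap_map_baseChange [Algebra.IsAlgebraic k K] (ι : F →+* FK)
    (hι : ∀ c : k, ι (algebraMap k F c) = algebraMap k FK c) (t : F)
    {G : Type} (act : G → FK →+* FK) (hact_t : ∀ σ, act σ (ι t) = ι t)
    (hact_K : ∀ (σ : G) (c : K), ∃ c' : K, act σ (algebraMap K FK c) = algebraMap K FK c')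
    (hD : ∀ V : Submodule K FK, (∀ (σ : G) (v : FK), v ∈ V → act σ v ∈ V) →
      ∀ v ∈ V, v ∈ Submodule.span K {w : FK | w ∈ V ∧ ∃ f : F, ι f = w})
    (W : Submodule k ↥(integralClosure (Algebra.adjoin k ({t} : Set F)) F))
    (WK : Submodule K ↥(integralClosure (Algebra.adjoin K ({ι t} : Set FK)) FK))
    (ha : ∀ r ∈ W, intMap ι hι t r ∈ WK)
    (hb : ∀ (σ : G) (v v' : ↥(integralClosure (Algebra.adjoin K ({ι t} : Set FK)) FK)),
      v ∈ WK → (v' : FK) = act σ (v : FK) → v' ∈ WK)
    (hc : ∀ r : ↥(integralClosure (Algebra.adjoin k ({t} : Set F)) F),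
      intMap ι hι t r ∈ WK → r ∈ W) :
    Submodule.map (barMap (K := K) ι hι t).toLinearMap (W.baseChange K) = WK := by
  have hone : ∀ r : ↥(integralClosure (Algebra.adjoin k ({t} : Set F)) F),
      barMap (K := K) ι hι t (1 ⊗ₜ[k] r) = intMap ι hι t r := by
    intro r
    apply Subtype.ext
    rw [coe_barMap_tmul, one_smul]
    rfl
  apply le_antisymm
  · rw [Submodule.baseChange_eq_span, Submodule.map_span, Submodule.span_le]
    rintro _ ⟨_, ⟨r, hr, rfl⟩, rfl⟩
    show barMap (K := K) ι hι t (1 ⊗ₜ[k] r) ∈ WK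
    rw [hone]
    exact ha r hr
  · intro v hv
    let incl : ↥(integralClosure (Algebra.adjoin K ({ι t} : Set FK)) FK) →ₗ[K] FK :=
      (IsScalarTower.toAlgHom K ↥(integralClosure (Algebra.adjoin K ({ι t} : Set FK)) FK)
        FK).toLinearMap
    have hincl : ∀ x, incl x = (x : FK) := fun _ => rfl
    have hVstable : ∀ (σ : G) (x : FK), x ∈ WK.map incl → act σ x ∈ WK.map incl := by
      rintro σ _ ⟨v, hv, rfl⟩
      exact ⟨⟨act σ (v : FK), isIntegral_act ι t (act σ) (hact_t σ) (hact_K σ) v.2⟩,
        hb σ v _ hv rfl, rfl⟩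
    have h1 := hD (WK.map incl) hVstable (incl v) ⟨v, hv, rfl⟩
    have h2 : Submodule.span K {w : FK | w ∈ WK.map incl ∧ ∃ f : F, ι f = w} ≤
        (Submodule.map (barMap (K := K) ι hι t).toLinearMap (W.baseChange K)).map incl := by
      rw [Submodule.span_le]
      rintro w ⟨⟨v', hv', rfl⟩, f, hf⟩
      rw [hincl] at hf
      have hfint : IsIntegral (Algebra.adjoin k ({t} : Set F)) f :=
        isIntegral_of_isIntegral_map (K := K) ι hι t (by rw [hf]; exact v'.2)
      have hj : intMap ι hι t ⟨f, hfint⟩ = v' := Subtype.ext hf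
      have hfW : (⟨f, hfint⟩ : ↥(integralClosure (Algebra.adjoin k ({t} : Set F)) F)) ∈ W :=
        hc _ (by rw [hj]; exact hv')
      refine ⟨barMap (K := K) ι hι t (1 ⊗ₜ[k] ⟨f, hfint⟩),
        ⟨1 ⊗ₜ[k] ⟨f, hfint⟩, Submodule.tmul_mem_baseChange_of_mem 1 hfW, rfl⟩, ?_⟩
      rw [hone, hj]
    obtain ⟨v'', hv'', hcoe⟩ := h2 h1
    have hvv : v'' = v := Subtype.ext hcoe
    rw [← hvv]
    exact hv''

/-- **MW-E-ISO, generic form.** -/
theorem barIso_generic [Algebra.IsAlgebraic k K] (ι : F →+* FK)
    (hι : ∀ c : k, ι (algebraMap k F c) = algebraMap k FK c) (t : F)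
    (hL : ∀ (J : Type) (f : J → F), LinearIndependent k f →
      LinearIndependent K (fun i => ι (f i)))
    {G : Type} (act : G → FK →+* FK) (hact_t : ∀ σ, act σ (ι t) = ι t)
    (hact_K : ∀ (σ : G) (c : K), ∃ c' : K, act σ (algebraMap K FK c) = algebraMap K FK c')
    (hD : ∀ V : Submodule K FK, (∀ (σ : G) (v : FK), v ∈ V → act σ v ∈ V) →
      ∀ v ∈ V, v ∈ Submodule.span K {w : FK | w ∈ V ∧ ∃ f : F, ι f = w}) :
    ∃ Ψ : (K ⊗[k] ↥(integralClosure (Algebra.adjoin k ({t} : Set F)) F)) ≃ₐ[K]
        ↥(integralClosure (Algebra.adjoin K ({ι t} : Set FK)) FK),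
      (∀ (c : K) (r : ↥(integralClosure (Algebra.adjoin k ({t} : Set F)) F)),
        ((Ψ (c ⊗ₜ[k] r) : ↥(integralClosure (Algebra.adjoin K ({ι t} : Set FK)) FK)) : FK) =
          c • ι (r : F)) ∧
      ∀ (W : Submodule k ↥(integralClosure (Algebra.adjoin k ({t} : Set F)) F))
        (WK : Submodule K ↥(integralClosure (Algebra.adjoin K ({ι t} : Set FK)) FK)),
        (∀ r ∈ W, (⟨ι (r : F), isIntegral_map ι hι t r.2⟩ :
          ↥(integralClosure (Algebra.adjoin K ({ι t} : Set FK)) FK)) ∈ WK) →
        (∀ (σ : G) (v v' : ↥(integralClosure (Algebra.adjoin K ({ι t} : Set FK)) FK)),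
          v ∈ WK → (v' : FK) = act σ (v : FK) → v' ∈ WK) →
        (∀ r : ↥(integralClosure (Algebra.adjoin k ({t} : Set F)) F),
          (⟨ι (r : F), isIntegral_map ι hι t r.2⟩ :
            ↥(integralClosure (Algebra.adjoin K ({ι t} : Set FK)) FK)) ∈ WK → r ∈ W) →
        Submodule.map Ψ.toLinearMap (W.baseChange K) = WK := by
  have hsurj : Function.Surjective (barMap (K := K) ι hι t) := by
    have h := barMap_map_baseChange (K := K) ι hι t act hact_t hact_K hD ⊤ ⊤
      (fun _ _ => Submodule.mem_top) (fun _ _ _ _ _ => Submodule.mem_top)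
      (fun _ _ => Submodule.mem_top)
    rw [Submodule.baseChange_top, Submodule.map_top] at h
    exact LinearMap.range_eq_top.mp h
  refine ⟨AlgEquiv.ofBijective (barMap (K := K) ι hι t)
    ⟨barMap_injective ι hι t hL, hsurj⟩, fun c r => coe_barMap_tmul ι hι t c r, ?_⟩
  intro W WK ha hb hc
  exact barMap_map_baseChange (K := K) ι hι t act hact_t hact_K hD W WK ha hb hc

end generic

end Fermat.Agent.H33.MWE

end
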