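/-
P-MW block E, row 908 (MW-E-ISO): `ℚ̄ ⊗[ℚ] RatRing F₀ t ≃ BarRing F₀ t`, compatibly with the
pole-order filtrations (`Fermat.Agent.H23.MWE.BarIsoStatement`), from linear disjointness
(`LinDisjStatement`) and Galois descent (`DescentStatement`).
The algebra is in `Fermat.Agent.H33.MWE.BarIsoGeneric` (Mathlib only).
-/
import Fermat.Agent.H23.MWE.Interfaces
import Fermat.Agent.H33.MWE.BarIsoGeneric

set_option autoImplicit false
set_option linter.style.haveILetI false
set_option synthInstance.maxHeartbeats 400000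
set_option maxHeartbeats 1000000

noncomputable section

open ModularCurve AlgebraicCurve IntermediateField
open scoped TensorProduct

namespace Fermat.Agent.H33.MWE

open Fermat.Agent.H92.MW (QQbar)
open Fermat.Agent.H23.MWE

/-- A coefficientwise injective ring homomorphism preserves the order of a Laurent series. -/
theorem mwe_order_coeffMap {R S : Type*} [CommRing R] [CommRing S] (f : R →+* S)
    (hf : Function.Injective f) (x : LaurentSeries R) : (coeffMap f x).order = x.order := by
  have hzero : coeffMap f x = 0 ↔ x = 0 := by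
    constructor
    · intro h
      ext n
      apply hf
      have := congrArg (fun z => HahnSeries.coeff z n) h
      simpa using this
    · rintro rfl
      exact map_zero _
  rcases eq_or_ne x 0 with rfl | hx
  · rw [map_zero, HahnSeries.order_zero, HahnSeries.order_zero]
  have hx' : coeffMap f x ≠ 0 := fun h => hx (hzero.mp h)
  apply le_antisymm
  · apply HahnSeries.order_le_of_coeff_ne_zero
    rw [coeffMap_coeff]
    intro h
    exact hx (HahnSeries.coeff_order_eq_zero.mp (hf (by rw [h, map_zero])))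
  · apply HahnSeries.order_le_of_coeff_ne_zero
    intro h
    apply hx'
    apply HahnSeries.coeff_order_eq_zero.mp
    rw [coeffMap_coeff, h, map_zero]

variable (F₀ : IntermediateField ℚ (LaurentSeries ℚ))

theorem mwe_toBar_algebraMap (c : ℚ) :
    toBar F₀ (algebraMap ℚ ↥F₀ c) = algebraMap ℚ (FBar F₀) c := by
  rw [eq_ratCast, eq_ratCast, map_ratCast]

theorem mwe_order_toBar (f : ↥F₀) :
    ((toBar F₀ f : FBar F₀) : LaurentSeries QQbar).order = (f : LaurentSeries ℚ).order :=
  mwe_order_coeffMap (algebraMap ℚ QQbar) (algebraMap ℚ QQbar).injective _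

theorem mwe_order_arithmeticRingAut (σ : GalQ) (v : FBar F₀) :
    ((arithmeticRingAut F₀ σ v : FBar F₀) : LaurentSeries QQbar).order =
      (v : LaurentSeries QQbar).order :=
  mwe_order_coeffMap (σ : QQbar →+* QQbar) σ.injective _

/-- **MW-E-ISO.** -/
theorem barIso (hL : LinDisjStatement) (hD : DescentStatement) : BarIsoStatement := by
  intro F₀ t
  haveI : Algebra.IsAlgebraic ℚ QQbar := AlgebraicClosure.isAlgebraic ℚ
  obtain ⟨Ψ, h1, h2⟩ := barIso_generic (k := ℚ) (K := QQbar) (F := ↥F₀) (FK := FBar F₀)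
    (toBar F₀) (mwe_toBar_algebraMap F₀) t (hL F₀) (G := GalQ)
    (fun σ => (arithmeticRingAut F₀ σ).toRingHom)
    (fun σ => Subtype.ext (coeffMap_coeffEmb σ (t : LaurentSeries ℚ)))
    (fun σ c => ⟨σ c, arithmeticRingAut_algebraMap F₀ σ c⟩)
    (fun V hV v hv => hD F₀ V hV v hv)
  refine ⟨Ψ, h1, fun m => h2 (ratW F₀ t m) (barW F₀ t m) ?_ ?_ ?_⟩
  · intro r hr
    rw [mem_ratW] at hr
    rw [mem_barW]
    show -(m : ℤ) ≤ ((toBar F₀ (r : ↥F₀) : FBar F₀) : LaurentSeries QQbar).order
    rw [mwe_order_toBar]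
    exact hr
  · intro σ v v' hv hv'
    rw [mem_barW] at hv ⊢
    rw [hv']
    show -(m : ℤ) ≤ ((arithmeticRingAut F₀ σ (v : FBar F₀) : FBar F₀) :
      LaurentSeries QQbar).order
    rw [mwe_order_arithmeticRingAut]
    exact hv
  · intro r hr
    rw [mem_barW] at hr
    rw [mem_ratW]
    have hr' : -(m : ℤ) ≤ ((toBar F₀ (r : ↥F₀) : FBar F₀) : LaurentSeries QQbar).order := hr
    rw [mwe_order_toBar] at hr'
    exact hr'

end Fermat.Agent.H33.MWE

end
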