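/-
P-MW block E: integrality descent (`Fermat.Agent.H1.MWE.IntegralDescentStatement`) and the
unconditional-in-`hInt` form of MW-E-D-SURJ, from the generic lemma
`Fermat.Agent.H33.MWE.isIntegral_of_isIntegral_map`.
-/
import Fermat.Agent.H1.MWE.SurjMain
import Fermat.Agent.H33.MWE.BarIso

set_option autoImplicit false
set_option linter.style.haveILetI false
set_option synthInstance.maxHeartbeats 400000
set_option maxHeartbeats 1000000

noncomputable section

open ModularCurve AlgebraicCurve IntermediateField

namespace Fermat.Agent.H33.MWE

open Fermat.Agent.H92.MW (QQbar)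
open Fermat.Agent.H23.MWE

/-- **Integrality descent**: an element `f` of `F₀` such that `toBar f` is integral over
`ℚ̄[toBar t]` is integral over `ℚ[t]`. -/
theorem integralDescent : Fermat.Agent.H1.MWE.IntegralDescentStatement := by
  intro F₀ t f h
  haveI : Algebra.IsAlgebraic ℚ QQbar := AlgebraicClosure.isAlgebraic ℚ
  exact isIntegral_of_isIntegral_map (K := QQbar) (toBar F₀) (mwe_toBar_algebraMap F₀) t h

/-- **MW-E-D-SURJ** from `HolDivisorStatement` and `DescentStatement`. -/
theorem idealDivisorSurj (hHD : HolDivisorStatement) (hDesc : DescentStatement) :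
    IdealDivisorSurjStatement :=
  Fermat.Agent.H1.MWE.idealDivisorSurj_of hHD hDesc integralDescent

end Fermat.Agent.H33.MWE

end
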